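import Mathlib

set_option autoImplicit false

/-!
Level one analysis of the function `j = E₄³/Δ` on the upper half plane.
-/

open UpperHalfPlane ModularForm SlashInvariantForm SlashInvariantFormClass ModularFormClass
open scoped MatrixGroups Manifold Topology Polynomial

noncomputable section

namespace Fermat.Agent.JLevelOne

/-- Build a level one modular form from slash-invariance, holomorphy and boundedness. -/
def mkForm {k : ℤ} (f : ℍ → ℂ) (hs : ∀ γ : SL(2, ℤ), f ∣[k] γ = f) (hol : MDiff f)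
    (hb : IsBoundedAtImInfty f) : ModularForm 𝒮ℒ k where
  toFun := f
  slash_action_eq' := fun _ ⟨γ, hγ⟩ ↦ hγ ▸ hs γ
  holo' := hol
  bdd_at_cusps' {c} hc := by
    rw [Subgroup.IsArithmetic.isCusp_iff_isCusp_SL2Z] at hc
    rw [OnePoint.isBoundedAt_iff_forall_SL2Z hc]
    intro γ _
    rw [hs γ]
    exact hb

@[simp] lemma mkForm_apply {k : ℤ} (f : ℍ → ℂ) (hs : ∀ γ : SL(2, ℤ), f ∣[k] γ = f) (hol : MDiff f)
    (hb : IsBoundedAtImInfty f) (τ : ℍ) : mkForm f hs hol hb τ = f τ := rfl

/-- The `j`-function `E₄³/Δ`. -/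
def jFun (τ : ℍ) : ℂ := E₄ τ ^ 3 / discriminant τ

lemma jFun_mul_discriminant (τ : ℍ) : jFun τ * discriminant τ = E₄ τ ^ 3 :=
  div_mul_cancel₀ _ (discriminant_ne_zero τ)

lemma jFun_sub_1728 (τ : ℍ) : jFun τ - 1728 = E₆ τ ^ 2 / discriminant τ := by
  have h := discriminant_eq_E₄_cube_sub_E₆_sq τ
  have h0 := discriminant_ne_zero τ
  rw [jFun, eq_div_iff h0, sub_mul, div_mul_cancel₀ _ h0]
  rw [h]; ring

lemma slash_apply_form {k : ℤ} (f : ModularForm 𝒮ℒ k) (γ : SL(2, ℤ)) (τ : ℍ) :
    f (γ • τ) = denom γ τ ^ k * f τ := by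
  have h := congrFun (f.slash_action_eq' _ ⟨γ, rfl⟩) τ
  have h' : ((f : ℍ → ℂ) ∣[k] γ) τ = f τ := h
  rw [ModularForm.SL_slash_apply] at h'
  have hd : denom γ τ ≠ 0 := denom_ne_zero _ _
  rw [← h', mul_comm, mul_assoc, ← zpow_add₀ hd, neg_add_cancel, zpow_zero, mul_one]

lemma slash_apply_cusp {k : ℤ} (f : CuspForm 𝒮ℒ k) (γ : SL(2, ℤ)) (τ : ℍ) :
    f (γ • τ) = denom γ τ ^ k * f τ := by
  have h := congrFun (f.slash_action_eq' _ ⟨γ, rfl⟩) τ
  have h' : ((f : ℍ → ℂ) ∣[k] γ) τ = f τ := h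
  rw [ModularForm.SL_slash_apply] at h'
  have hd : denom γ τ ≠ 0 := denom_ne_zero _ _
  rw [← h', mul_comm, mul_assoc, ← zpow_add₀ hd, neg_add_cancel, zpow_zero, mul_one]

lemma discriminant_smul (γ : SL(2, ℤ)) (τ : ℍ) :
    discriminant (γ • τ) = denom γ τ ^ (12 : ℤ) * discriminant τ :=
  slash_apply_cusp CuspForm.discriminant γ τ

lemma jFun_smul (γ : SL(2, ℤ)) (τ : ℍ) : jFun (γ • τ) = jFun τ := by
  have hd : denom γ τ ≠ 0 := denom_ne_zero _ _
  rw [jFun, jFun, discriminant_smul, slash_apply_form E₄ γ τ]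
  have h0 := discriminant_ne_zero τ
  rw [div_eq_div_iff (mul_ne_zero (zpow_ne_zero _ hd) h0) h0, mul_pow, ← zpow_natCast, ← zpow_mul]
  norm_num
  ring

lemma mdiff_discriminant : MDiff (discriminant : ℍ → ℂ) := CuspForm.discriminant.holo'

lemma jFun_mdiff : MDiff jFun := by
  have h : jFun = (fun τ => (E₄ τ * E₄ τ * E₄ τ) / discriminant τ) := by
    funext τ; rw [jFun]; ring
  rw [h]
  exact ((E₄.holo'.mul E₄.holo').mul E₄.holo').div mdiff_discriminant discriminant_ne_zero

/-- The power `E₄^(3n)` as a form of weight `12 n`. -/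
lemma qExpansion_coeff_zero_E₄_pow (n : ℕ) :
    (qExpansion 1 (E₄.pow n)).coeff 0 = 1 := by
  rw [ModularForm.qExpansion_pow one_pos one_mem_strictPeriods_SL]
  have h := EisensteinSeries.E_qExpansion_coeff_zero (k := 4) (by norm_num) ⟨2, rfl⟩
  rw [PowerSeries.coeff_zero_eq_constantCoeff] at h ⊢
  rw [map_pow, h, one_pow]

lemma slash_zero_of_inv {f : ℍ → ℂ} (hinv : ∀ (γ : SL(2, ℤ)) (τ : ℍ), f (γ • τ) = f τ) (m : ℕ)
    (γ : SL(2, ℤ)) :
    (fun τ => f τ * discriminant τ ^ m) ∣[(12 * m : ℤ)] γ = fun τ => f τ * discriminant τ ^ m := by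
  funext τ
  rw [ModularForm.SL_slash_apply, hinv, discriminant_smul]
  have hd : denom γ τ ≠ 0 := denom_ne_zero _ _
  rw [mul_pow, ← zpow_natCast (denom γ τ ^ (12 : ℤ)), ← zpow_mul]
  rw [show f τ * (denom γ τ ^ ((12 : ℤ) * (m : ℤ)) * discriminant τ ^ m) *
      denom γ τ ^ (-((12 : ℤ) * (m : ℤ))) = f τ * discriminant τ ^ m *
      (denom γ τ ^ ((12 : ℤ) * (m : ℤ)) * denom γ τ ^ (-((12 : ℤ) * (m : ℤ)))) by ring,
    ← zpow_add₀ hd, add_neg_cancel, zpow_zero, mul_one]

/-- (a) Every `SL₂(ℤ)`-invariant holomorphic function on `ℍ` with `f Δ^m` bounded at `i∞`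
is a polynomial in `j`, of degree at most `m`. -/
theorem exists_polynomial_of_invariant (m : ℕ) : ∀ (f : ℍ → ℂ), MDiff f →
    (∀ (γ : SL(2, ℤ)) (τ : ℍ), f (γ • τ) = f τ) →
    IsBoundedAtImInfty (fun τ => f τ * discriminant τ ^ m) →
    ∃ P : ℂ[X], P.natDegree ≤ m ∧ ∀ τ, f τ = P.eval (jFun τ) := by
  induction m with
  | zero =>
    intro f hf hinv hb
    have hs : ∀ γ : SL(2, ℤ), f ∣[(0 : ℤ)] γ = f := by
      intro γ
      have := slash_zero_of_inv hinv 0 γ
      simpa using this
    obtain ⟨c, hc⟩ := ModularFormClass.levelOne_weight_zero_const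
      (mkForm (k := 0) f hs hf (by simpa using hb))
    refine ⟨Polynomial.C c, by simp, fun τ => ?_⟩
    have := congrFun hc τ
    simpa using this
  | succ m ih =>
    intro f hf hinv hb
    have hΔ : MDiff (fun τ : ℍ => discriminant τ ^ (m + 1)) := mdiff_discriminant.pow (m + 1)
    set g : ModularForm 𝒮ℒ (12 * ((m + 1 : ℕ) : ℤ)) :=
      mkForm (fun τ => f τ * discriminant τ ^ (m + 1)) (slash_zero_of_inv hinv (m + 1))
        (hf.mul hΔ) hb with hg
    set e : ModularForm 𝒮ℒ (12 * ((m + 1 : ℕ) : ℤ)) :=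
      ModularForm.mcast (by push_cast; ring) (E₄.pow (3 * (m + 1))) with he
    have he0 : (qExpansion 1 e).coeff 0 = 1 := by
      rw [he, ModularForm.qExpansion_mcast]
      exact qExpansion_coeff_zero_E₄_pow _
    set c := (qExpansion 1 g).coeff 0 with hc
    have hcusp := ModularForm.sub_smul_isCuspForm g e he0
    obtain ⟨h, hh⟩ := hcusp
    set h' := CuspForm.discriminantEquiv h with hh'
    have key : ∀ τ, discriminant τ * h' τ = f τ * discriminant τ ^ (m + 1) -
        c * E₄ τ ^ (3 * (m + 1)) := by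
      intro τ
      rw [hh', ModularForm.discriminant_mul_discriminantEquiv_apply]
      have h1 : (h.toModularFormₗ) τ = (g - c • e) τ := by rw [hh]
      rw [CuspForm.toModularFormₗ_apply] at h1
      rw [h1]
      have h2 : (E₄.pow (3 * (m + 1))) τ = E₄ τ ^ (3 * (m + 1)) :=
        congrFun (ModularForm.coe_pow E₄ (3 * (m + 1))) τ
      simp [hg, he, h2, ← hc]
    have hbd : IsBoundedAtImInfty (fun τ => (f τ - c * jFun τ ^ (m + 1)) * discriminant τ ^ m) := by
      have : (fun τ => (f τ - c * jFun τ ^ (m + 1)) * discriminant τ ^ m) = h' := by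
        funext τ
        have h0 := discriminant_ne_zero τ
        have := key τ
        have h2 : (jFun τ * discriminant τ) ^ (m + 1) = E₄ τ ^ (3 * (m + 1)) := by
          rw [jFun_mul_discriminant, ← pow_mul]
        apply mul_left_cancel₀ h0
        rw [this, ← h2, mul_pow]
        ring
      rw [this]
      exact ModularFormClass.bdd_at_infty h'
    obtain ⟨P, hP, hP'⟩ := ih (fun τ => f τ - c * jFun τ ^ (m + 1))
      (hf.sub (mdifferentiable_const.mul (jFun_mdiff.pow (m + 1))))
      (fun γ τ => by simp only [hinv, jFun_smul]) hbd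
    refine ⟨P + Polynomial.C c * Polynomial.X ^ (m + 1), ?_, fun τ => ?_⟩
    · refine (Polynomial.natDegree_add_le _ _).trans (max_le (hP.trans (Nat.le_succ m)) ?_)
      exact Polynomial.natDegree_C_mul_X_pow_le c (m + 1)
    · have := hP' τ
      simp only [Polynomial.eval_add, Polynomial.eval_mul, Polynomial.eval_C, Polynomial.eval_pow,
        Polynomial.eval_X]
      rw [← this]; ring

/-- A level one modular form tends to the constant term of its `q`-expansion at `i∞`. -/
lemma tendsto_form {k : ℤ} (f : ModularForm 𝒮ℒ k) :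
    Filter.Tendsto f atImInfty (𝓝 ((qExpansion 1 f).coeff 0)) := by
  have hanal := ModularFormClass.analyticAt_cuspFunction_zero f one_pos one_mem_strictPeriods_SL
  have hper := periodic_comp_ofComplex f one_mem_strictPeriods_SL
  rw [qExpansion_coeff_zero one_pos hanal hper, ← cuspFunction_apply_zero one_pos hanal hper]
  exact (hanal.continuousAt.tendsto.comp (qParam_tendsto_atImInfty one_pos)).congr
    (fun τ ↦ SlashInvariantFormClass.eq_cuspFunction f τ one_mem_strictPeriods_SL one_ne_zero)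

lemma tendsto_E₄ : Filter.Tendsto E₄ atImInfty (𝓝 1) := by
  have h := EisensteinSeries.E_qExpansion_coeff_zero (k := 4) (by norm_num) ⟨2, rfl⟩
  have := tendsto_form E₄
  rwa [h] at this

lemma tendsto_E₆ : Filter.Tendsto E₆ atImInfty (𝓝 1) := by
  have h := EisensteinSeries.E_qExpansion_coeff_zero (k := 6) (by norm_num) ⟨3, rfl⟩
  have := tendsto_form E₆
  rwa [h] at this

lemma tendsto_discriminant : Filter.Tendsto (discriminant : ℍ → ℂ) atImInfty (𝓝 0) :=
  discriminant_isZeroAtImInfty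

/-- (b) `j : ℍ → ℂ` is surjective. -/
theorem jFun_surjective : Function.Surjective jFun := by
  intro a
  by_contra hne
  push Not at hne
  have hne' : ∀ τ, jFun τ - a ≠ 0 := fun τ => sub_ne_zero.mpr (hne τ)
  have hmd : MDiff (fun τ => 1 / (jFun τ - a)) :=
    mdifferentiable_const.div (jFun_mdiff.sub mdifferentiable_const) hne'
  have hrew : ∀ τ, 1 / (jFun τ - a) = discriminant τ / (E₄ τ ^ 3 - a * discriminant τ) := by
    intro τ
    have h0 := discriminant_ne_zero τ
    rw [← jFun_mul_discriminant, ← sub_mul, div_eq_div_iff (hne' τ) (mul_ne_zero (hne' τ) h0)]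
    ring
  have htend : Filter.Tendsto (fun τ => 1 / (jFun τ - a)) atImInfty (𝓝 0) := by
    have h1 : Filter.Tendsto (fun τ => E₄ τ ^ 3 - a * discriminant τ) atImInfty (𝓝 1) := by
      have := (tendsto_E₄.pow 3).sub (tendsto_discriminant.const_mul a)
      simpa using this
    have h2 := tendsto_discriminant.div h1 one_ne_zero
    rw [zero_div] at h2
    exact h2.congr fun τ => (hrew τ).symm
  have hb : IsBoundedAtImInfty (fun τ => (1 / (jFun τ - a)) * discriminant τ ^ 0) := by
    simp only [pow_zero, mul_one]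
    exact htend.isBigO_one ℝ
  obtain ⟨P, hP, hP'⟩ := exists_polynomial_of_invariant 0 _ hmd
    (fun γ τ => by simp only [jFun_smul]) hb
  have hPc : P = Polynomial.C (P.coeff 0) := Polynomial.eq_C_of_natDegree_le_zero hP
  have hconst : ∀ τ, 1 / (jFun τ - a) = P.coeff 0 := by
    intro τ
    rw [hP' τ]
    conv_lhs => rw [hPc]
    simp
  have h0 : P.coeff 0 = 0 := by
    refine tendsto_nhds_unique ?_ htend
    refine Filter.Tendsto.congr (fun τ => (hconst τ).symm) tendsto_const_nhds
  have := hconst UpperHalfPlane.I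
  rw [h0] at this
  exact (one_div_ne_zero (hne' _)) this

end Fermat.Agent.JLevelOne
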