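import Mathlib
import Fermat.Agent.JLevelOne.Basic

set_option autoImplicit false

/-!
Derivatives of `E₄`, `E₆`, `Δ`, `j` (Ramanujan identities).
-/

open UpperHalfPlane ModularForm SlashInvariantForm SlashInvariantFormClass ModularFormClass
open Derivative EisensteinSeries
open scoped MatrixGroups Manifold Topology Polynomial

noncomputable section

namespace Fermat.Agent.JLevelOne

local notation "𝕢" => Function.Periodic.qParam

lemma hasDerivAt_qParam_one (z : ℂ) : HasDerivAt (𝕢 1) (2 * Real.pi * Complex.I * 𝕢 1 z) z := by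
  have h : 𝕢 1 = fun z : ℂ => Complex.exp (2 * Real.pi * Complex.I * z) := by
    funext z; simp [Function.Periodic.qParam]
  rw [h]
  have := ((hasDerivAt_id z).const_mul (2 * Real.pi * Complex.I)).cexp
  simpa [mul_comm] using this

lemma hasDerivAt_form {k : ℤ} (f : ModularForm 𝒮ℒ k) (z : ℍ) :
    HasDerivAt (f ∘ ofComplex)
      (deriv (cuspFunction 1 f) (𝕢 1 z) * (2 * Real.pi * Complex.I * 𝕢 1 z)) z := by
  have hq : ‖𝕢 1 (z : ℂ)‖ < 1 := by
    simpa using (Function.Periodic.norm_qParam_lt_iff one_pos 0 z.1).mpr z.2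
  have h1 : HasDerivAt (cuspFunction 1 f) (deriv (cuspFunction 1 f) (𝕢 1 z)) (𝕢 1 z) :=
    (ModularFormClass.differentiableAt_cuspFunction f one_pos one_mem_strictPeriods_SL hq).hasDerivAt
  have h2 := h1.comp (z : ℂ) (hasDerivAt_qParam_one z)
  refine h2.congr_of_eventuallyEq ?_
  filter_upwards [isOpen_upperHalfPlaneSet.mem_nhds z.im_pos] with w hw
  have := SlashInvariantFormClass.eq_cuspFunction f (⟨w, hw⟩ : ℍ) one_mem_strictPeriods_SL
    one_ne_zero
  rw [Function.comp_apply, Function.comp_apply, ofComplex_apply_of_im_pos hw, ← this]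

lemma D_form {k : ℤ} (f : ModularForm 𝒮ℒ k) (z : ℍ) :
    D f z = 𝕢 1 z * deriv (cuspFunction 1 f) (𝕢 1 z) := by
  rw [normalizedDerivOfComplex, (hasDerivAt_form f z).deriv]
  have : (2 * (Real.pi : ℂ) * Complex.I) ≠ 0 := Complex.two_pi_I_ne_zero
  field_simp

lemma tendsto_D_form {k : ℤ} (f : ModularForm 𝒮ℒ k) : Filter.Tendsto (D f) atImInfty (𝓝 0) := by
  have hanal := ModularFormClass.analyticAt_cuspFunction_zero f one_pos one_mem_strictPeriods_SL
  have h1 : Filter.Tendsto (fun τ : ℍ => 𝕢 1 τ) atImInfty (𝓝 0) := qParam_tendsto_atImInfty one_pos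
  have h2 : Filter.Tendsto (fun τ : ℍ => deriv (cuspFunction 1 f) (𝕢 1 τ)) atImInfty
      (𝓝 (deriv (cuspFunction 1 f) 0)) := hanal.deriv.continuousAt.tendsto.comp h1
  have h3 := h1.mul h2
  rw [zero_mul] at h3
  exact h3.congr fun τ => (D_form f τ).symm

lemma E2_T_smul (z : ℍ) : E2 (ModularGroup.T • z) = E2 z := by
  have h := congrFun (E2_slash_action ModularGroup.T) z
  rw [D2_T, smul_zero, sub_zero, ModularForm.SL_slash_apply] at h
  have hd : denom ModularGroup.T z = 1 := by simp [denom, ModularGroup.T]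
  rwa [hd, one_zpow, mul_one] at h

lemma periodic_E2 : Function.Periodic (E2 ∘ ofComplex) ((1 : ℝ) : ℂ) := by
  intro w
  by_cases! hw : 0 < w.im
  · have : 0 < (w + ((1 : ℝ) : ℂ)).im := by simp [hw]
    simp only [Function.comp_apply, ofComplex_apply_of_im_pos this, ofComplex_apply_of_im_pos hw]
    rw [← E2_T_smul ⟨w, hw⟩]
    congr 1
    ext
    rw [modular_T_smul, coe_vadd]
    simp [add_comm]
  · have : (w + ((1 : ℝ) : ℂ)).im ≤ 0 := by simpa using hw
    simp only [Function.comp_apply]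
    rw [ofComplex_apply_of_im_nonpos this, ofComplex_apply_of_im_nonpos hw]

lemma tendsto_E2 : Filter.Tendsto E2 atImInfty (𝓝 1) := by
  have hanal : AnalyticAt ℂ (cuspFunction 1 E2) 0 :=
    analyticAt_cuspFunction_zero one_pos periodic_E2 E2_mdifferentiable isBoundedAtImInfty_E2
  have hs : ∀ τ : ℍ, HasSum (fun m : ℕ ↦ (if m = 0 then 1 else -24 * ArithmeticFunction.sigma 1 m : ℂ) •
      𝕢 1 (τ : ℂ) ^ m) (E2 τ) := fun τ => by
    simpa only [Function.Periodic.qParam, Complex.ofReal_one, div_one] using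
      hasSum_qExpansion_E2 (z := τ)
  have h0 := (hasFPowerSeriesOnBall_cuspFunction one_pos hanal hs).coeff_zero 1
  have h1 : cuspFunction 1 E2 0 = 1 := by
    rw [← h0]
    simp
  have h2 := (hanal.continuousAt.tendsto.comp (qParam_tendsto_atImInfty one_pos))
  rw [h1] at h2
  exact h2.congr (fun τ ↦ eq_cuspFunction τ one_ne_zero periodic_E2)

lemma tendsto_serre {k : ℤ} (f : ModularForm 𝒮ℒ k) :
    Filter.Tendsto (serreDerivative k f) atImInfty (𝓝 (-(k / 12 : ℂ) * (qExpansion 1 f).coeff 0)) := by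
  have h := (tendsto_D_form f).sub ((tendsto_E2.const_mul ((k : ℂ) * 12⁻¹)).mul (tendsto_form f))
  convert! h using 1
  congr 1
  ring

/-- The Serre derivative of a level one modular form. -/
def serreForm {k : ℤ} (f : ModularForm 𝒮ℒ k) : ModularForm 𝒮ℒ (k + 2) :=
  mkForm (serreDerivative k f)
    (fun γ => serreDerivative_slash_invariant f.holo' (f.slash_action_eq' _ ⟨γ, rfl⟩))
    (serreDerivative_mdifferentiable _ f.holo')
    ((tendsto_serre f).isBigO_one ℝ)

lemma serreForm_apply {k : ℤ} (f : ModularForm 𝒮ℒ k) (τ : ℍ) :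
    serreForm f τ = D f τ - k * 12⁻¹ * E2 τ * f τ := rfl

lemma coeff_zero_serreForm {k : ℤ} (f : ModularForm 𝒮ℒ k) :
    (qExpansion 1 (serreForm f)).coeff 0 = -(k / 12 : ℂ) * (qExpansion 1 f).coeff 0 :=
  tendsto_nhds_unique (tendsto_form (serreForm f)) (tendsto_serre f)

/-- If `M_k` is one dimensional and `g ∈ M_k` has constant term `1` then every `f ∈ M_k` is
`a₀(f) g`. -/
lemma eq_smul_of_rank_one {k : ℤ} (hk : Module.rank ℂ (ModularForm 𝒮ℒ k) = 1)
    (g : ModularForm 𝒮ℒ k) (hg : (qExpansion 1 g).coeff 0 = 1) (f : ModularForm 𝒮ℒ k) (τ : ℍ) :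
    f τ = (qExpansion 1 f).coeff 0 * g τ := by
  have hg0 : g ≠ 0 := by
    rintro rfl
    rw [FunLike.coe_zero, qExpansion_zero] at hg
    simp at hg
  obtain ⟨c, hc⟩ := (finrank_eq_one_iff_of_nonzero' g hg0).mp
    (Module.rank_eq_one_iff_finrank_eq_one.mp hk) f
  have h1 : (qExpansion 1 f).coeff 0 = c := by
    rw [← hc, FunLike.coe_smul, ModularForm.qExpansion_smul one_pos one_mem_strictPeriods_SL,
      PowerSeries.coeff_smul, hg, smul_eq_mul, mul_one]
  rw [h1, ← hc]; rfl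

/-- Ramanujan: `∂₄ E₄ = -E₆/3`. -/
theorem D_E₄ (τ : ℍ) : D E₄ τ = (E2 τ * E₄ τ - E₆ τ) / 3 := by
  have h := eq_smul_of_rank_one ModularForm.levelOne_weight_six_rank_one E₆
    (EisensteinSeries.E_qExpansion_coeff_zero (k := 6) (by norm_num) ⟨3, rfl⟩)
    (ModularForm.mcast (by norm_num) (serreForm E₄)) τ
  rw [ModularForm.qExpansion_mcast, coeff_zero_serreForm,
    EisensteinSeries.E_qExpansion_coeff_zero (k := 4) (by norm_num) ⟨2, rfl⟩] at h
  have h2 : (ModularForm.mcast (by norm_num) (serreForm E₄) : ModularForm 𝒮ℒ 6) τ =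
    D E₄ τ - ((4 : ℤ) : ℂ) * 12⁻¹ * E2 τ * E₄ τ := rfl
  rw [h2] at h
  push_cast at h
  linear_combination h

lemma rank_weight_eight : Module.rank ℂ (ModularForm 𝒮ℒ 8) = 1 := by
  have := ModularForm.dimension_level_one 8 ⟨4, rfl⟩
  simpa [Nat.ModEq] using this

/-- Ramanujan: `∂₆ E₆ = -E₄²/2`. -/
theorem D_E₆ (τ : ℍ) : D E₆ τ = (E2 τ * E₆ τ - E₄ τ ^ 2) / 2 := by
  have he : (qExpansion 1 (ModularForm.mcast (by norm_num) (E₄.pow 2) : ModularForm 𝒮ℒ 8)).coeff 0
      = 1 := by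
    rw [ModularForm.qExpansion_mcast]
    exact qExpansion_coeff_zero_E₄_pow _
  have h := eq_smul_of_rank_one rank_weight_eight _ he
    (ModularForm.mcast (by norm_num) (serreForm E₆)) τ
  rw [ModularForm.qExpansion_mcast, coeff_zero_serreForm,
    EisensteinSeries.E_qExpansion_coeff_zero (k := 6) (by norm_num) ⟨3, rfl⟩] at h
  have h2 : (ModularForm.mcast (by norm_num) (serreForm E₆) : ModularForm 𝒮ℒ 8) τ =
    D E₆ τ - ((6 : ℤ) : ℂ) * 12⁻¹ * E2 τ * E₆ τ := rfl
  have h3 : (ModularForm.mcast (by norm_num) (E₄.pow 2) : ModularForm 𝒮ℒ 8) τ = E₄ τ ^ 2 :=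
    congrFun (ModularForm.coe_pow E₄ 2) τ
  rw [h2, h3] at h
  push_cast at h
  linear_combination h

lemma mdiff_E₄ : MDiff (E₄ : ℍ → ℂ) := E₄.holo'

lemma mdiff_E₆ : MDiff (E₆ : ℍ → ℂ) := E₆.holo'

lemma hasDerivAt_of_mdiff {F : ℍ → ℂ} (hF : MDiff F) (τ : ℍ) :
    HasDerivAt (F ∘ ofComplex) (2 * Real.pi * Complex.I * D F τ) τ := by
  have h := (UpperHalfPlane.mdifferentiableAt_iff.mp (hF τ)).hasDerivAt
  have h2 : 2 * Real.pi * Complex.I * D F τ = deriv (F ∘ ofComplex) τ := by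
    rw [normalizedDerivOfComplex, ← mul_assoc, mul_inv_cancel₀ Complex.two_pi_I_ne_zero, one_mul]
  rw [h2]; exact h

lemma D_eq_of_hasDerivAt {F : ℍ → ℂ} {τ : ℍ} {c : ℂ}
    (h : HasDerivAt (F ∘ ofComplex) (2 * Real.pi * Complex.I * c) τ) : D F τ = c := by
  rw [normalizedDerivOfComplex, h.deriv, ← mul_assoc, inv_mul_cancel₀ Complex.two_pi_I_ne_zero,
    one_mul]

/-- Ramanujan: `D Δ = E₂ Δ`. -/
theorem D_discriminant (τ : ℍ) : D discriminant τ = E2 τ * discriminant τ := by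
  apply D_eq_of_hasDerivAt
  have h4 := (hasDerivAt_of_mdiff mdiff_E₄ τ).pow 3
  have h6 := (hasDerivAt_of_mdiff mdiff_E₆ τ).pow 2
  have h := (h4.sub h6).div_const 1728
  have heq : (discriminant ∘ ofComplex) = fun z : ℂ =>
      (((E₄ : ℍ → ℂ) ∘ ofComplex) ^ 3 - ((E₆ : ℍ → ℂ) ∘ ofComplex) ^ 2) z / 1728 := by
    funext z
    simp only [Function.comp_apply, Pi.sub_apply, Pi.pow_apply]
    exact discriminant_eq_E₄_cube_sub_E₆_sq _
  rw [heq]
  convert! h using 1
  simp only [Function.comp_apply, ofComplex_apply, D_E₄, D_E₆]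
  rw [discriminant_eq_E₄_cube_sub_E₆_sq]
  push_cast
  ring

/-- `D j = -E₄² E₆ / Δ`. -/
theorem D_jFun (τ : ℍ) : D jFun τ = -(E₄ τ ^ 2 * E₆ τ) / discriminant τ := by
  apply D_eq_of_hasDerivAt
  have h4 := (hasDerivAt_of_mdiff mdiff_E₄ τ).pow 3
  have hd := hasDerivAt_of_mdiff mdiff_discriminant τ
  have h0 := discriminant_ne_zero τ
  have h := h4.div hd (by simpa using h0)
  have heq : (jFun ∘ ofComplex) = (((E₄ : ℍ → ℂ) ∘ ofComplex) ^ 3 / (discriminant ∘ ofComplex)) := by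
    funext z
    simp only [Function.comp_apply, Pi.div_apply, Pi.pow_apply]
    rfl
  rw [heq]
  convert! h using 1
  simp only [Function.comp_apply, Pi.pow_apply, ofComplex_apply, D_E₄, D_discriminant]
  field_simp
  push_cast
  ring

end Fermat.Agent.JLevelOne
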