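import Mathlib
import Fermat.Agent.JLevelOne.Deriv

set_option autoImplicit false

/-!
Orders of vanishing of `E₄`, `E₆`, `j - j(τ₀)`; elliptic points; orders of invariant functions.
-/

open UpperHalfPlane ModularForm SlashInvariantForm SlashInvariantFormClass ModularFormClass
open Derivative EisensteinSeries
open scoped MatrixGroups Manifold Topology Polynomial

noncomputable section

namespace Fermat.Agent.JLevelOne

lemma analyticAt_of_mdiff {F : ℍ → ℂ} (hF : MDiff F) (τ : ℍ) : AnalyticAt ℂ (F ∘ ofComplex) τ := by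
  rw [UpperHalfPlane.mdifferentiable_iff] at hF
  exact hF.analyticAt (isOpen_upperHalfPlaneSet.mem_nhds τ.im_pos)

/-- The order of `F ∘ γ` at `τ` is the order of `F` at `γ τ`. -/
theorem analyticOrderAt_comp_smul_GL {g : GL (Fin 2) ℝ} (hg : 0 < g.val.det) (F : ℍ → ℂ) (τ : ℍ) :
    analyticOrderAt ((fun z : ℍ => F (g • z)) ∘ ofComplex) τ
      = analyticOrderAt (F ∘ ofComplex) ((g • τ : ℍ) : ℂ) := by
  have h := analyticOrderAt_comp_of_deriv_ne_zero (f := F ∘ ofComplex)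
    (analyticAt_smul hg τ) (deriv_smul_ne_zero hg τ)
  simp only [ofComplex_apply] at h
  rw [← h]
  congr 1
  funext z
  simp [Function.comp_apply, ofComplex_apply]

theorem analyticOrderAt_comp_smul (γ : SL(2, ℤ)) (F : ℍ → ℂ) (τ : ℍ) :
    analyticOrderAt ((fun z : ℍ => F (γ • z)) ∘ ofComplex) τ
      = analyticOrderAt (F ∘ ofComplex) ((γ • τ : ℍ) : ℂ) := by
  have hdet : 0 < ((γ : GL (Fin 2) ℝ)).val.det := by
    have : ((γ : GL (Fin 2) ℝ)).val.det = 1 := by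
      rw [← Matrix.GeneralLinearGroup.val_det_apply]; simp
    rw [this]; exact one_pos
  exact analyticOrderAt_comp_smul_GL hdet F τ

/-- If `f = f ∘ g` near a fixed point `z₀` of the analytic map `g` and the order of `f` at `z₀` is
the natural number `n`, then `g'(z₀)^n = 1`. -/
theorem deriv_pow_eq_one_of_comp_eq {f g : ℂ → ℂ} {z₀ : ℂ} (hg : AnalyticAt ℂ g z₀)
    (hgz : g z₀ = z₀) (hfg : f ∘ g =ᶠ[𝓝 z₀] f) {n : ℕ} (hn : analyticOrderAt f z₀ = n)
    (hf : AnalyticAt ℂ f z₀) : deriv g z₀ ^ n = 1 := by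
  obtain ⟨h, hh, hh0, hfh⟩ := hf.analyticOrderAt_eq_natCast.mp hn
  have hslope := hasDerivAt_iff_tendsto_slope.mp hg.differentiableAt.hasDerivAt
  have hgc : Filter.Tendsto g (𝓝[≠] z₀) (𝓝 z₀) := by
    have := hg.continuousAt.tendsto
    rw [hgz] at this
    exact this.mono_left nhdsWithin_le_nhds
  have hhc : Filter.Tendsto h (𝓝 z₀) (𝓝 (h z₀)) := hh.continuousAt.tendsto
  have hlim1 : Filter.Tendsto (fun z => slope g z₀ z ^ n * h (g z)) (𝓝[≠] z₀)
      (𝓝 (deriv g z₀ ^ n * h z₀)) := (hslope.pow n).mul (hhc.comp hgc)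
  have hlim2 : Filter.Tendsto (fun z => h z) (𝓝[≠] z₀) (𝓝 (h z₀)) :=
    hhc.mono_left nhdsWithin_le_nhds
  have heq : (fun z => slope g z₀ z ^ n * h (g z)) =ᶠ[𝓝[≠] z₀] fun z => h z := by
    have e1 : ∀ᶠ z in 𝓝[≠] z₀, f z = (z - z₀) ^ n • h z := hfh.filter_mono nhdsWithin_le_nhds
    have e2 : ∀ᶠ z in 𝓝[≠] z₀, f (g z) = (g z - z₀) ^ n • h (g z) := hgc.eventually hfh
    have e3 : ∀ᶠ z in 𝓝[≠] z₀, (f ∘ g) z = f z := hfg.filter_mono nhdsWithin_le_nhds
    filter_upwards [e1, e2, e3, self_mem_nhdsWithin] with z h1 h2 h3 hz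
    have hz' : z - z₀ ≠ 0 := sub_ne_zero.mpr hz
    rw [Function.comp_apply, h1, h2] at h3
    simp only [smul_eq_mul] at h3
    rw [slope_def_field, hgz, div_pow, div_mul_eq_mul_div, h3, mul_comm, mul_div_assoc,
      div_self (pow_ne_zero n hz'), mul_one]
  have := tendsto_nhds_unique (hlim1.congr' heq) hlim2
  exact mul_right_cancel₀ hh0 (by rw [this, one_mul])

/-- If `F ∘ γ = F`, `γ τ = τ` and `F` has finite order `n` at `τ`, then `(cτ+d)^(2n) = 1`. -/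
theorem denom_pow_eq_one_of_invariant {F : ℍ → ℂ} (hF : MDiff F) {γ : SL(2, ℤ)} {τ : ℍ}
    (hγ : γ • τ = τ) (hinv : ∀ z : ℍ, F (γ • z) = F z) {n : ℕ}
    (hn : analyticOrderAt (F ∘ ofComplex) τ = n) : (denom γ τ ^ 2) ^ n = 1 := by
  have hdet : ((γ : GL (Fin 2) ℝ)).val.det = 1 := by
    rw [← Matrix.GeneralLinearGroup.val_det_apply]; simp
  have hdet' : 0 < ((γ : GL (Fin 2) ℝ)).val.det := by rw [hdet]; exact one_pos
  have h := deriv_pow_eq_one_of_comp_eq (f := F ∘ ofComplex)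
    (g := fun z : ℂ ↦ (((γ : GL (Fin 2) ℝ) • ofComplex z : ℍ) : ℂ)) (z₀ := τ)
    (analyticAt_smul hdet' τ) (by
      rw [ofComplex_apply]
      exact congrArg _ hγ) (Filter.Eventually.of_forall fun z => by
        simp only [Function.comp_apply, ofComplex_apply]
        exact hinv _) hn (analyticAt_of_mdiff hF τ)
  rw [deriv_smul hdet', hdet] at h
  push_cast at h
  rw [one_div, inv_pow, inv_eq_one] at h
  exact h

lemma E₄_or_E₆_ne_zero (τ : ℍ) : ¬ (E₄ τ = 0 ∧ E₆ τ = 0) := by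
  rintro ⟨h4, h6⟩
  have := discriminant_eq_E₄_cube_sub_E₆_sq τ
  rw [h4, h6] at this
  exact discriminant_ne_zero τ (by rw [this]; norm_num)

lemma E₆_ne_zero_of_E₄ {τ : ℍ} (h : E₄ τ = 0) : E₆ τ ≠ 0 := fun h6 => E₄_or_E₆_ne_zero τ ⟨h, h6⟩

lemma E₄_ne_zero_of_E₆ {τ : ℍ} (h : E₆ τ = 0) : E₄ τ ≠ 0 := fun h4 => E₄_or_E₆_ne_zero τ ⟨h4, h⟩

lemma jFun_eq_zero_iff (τ : ℍ) : jFun τ = 0 ↔ E₄ τ = 0 := by
  rw [jFun, div_eq_zero_iff, or_iff_left (discriminant_ne_zero τ), pow_eq_zero_iff (by norm_num)]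

lemma jFun_eq_1728_iff (τ : ℍ) : jFun τ = 1728 ↔ E₆ τ = 0 := by
  rw [← sub_eq_zero, jFun_sub_1728, div_eq_zero_iff, or_iff_left (discriminant_ne_zero τ),
    pow_eq_zero_iff (by norm_num)]

/-- The order of an `MDiff` function with simple zero. -/
lemma analyticOrderAt_eq_one {F : ℍ → ℂ} (hF : MDiff F) {τ : ℍ} (h0 : F τ = 0) (hD : D F τ ≠ 0) :
    analyticOrderAt (F ∘ ofComplex) τ = 1 := by
  refine (analyticAt_of_mdiff hF τ).analyticOrderAt_eq_one_of_zero_deriv_ne_zero ?_ ?_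
  · simpa using h0
  · rw [(hasDerivAt_of_mdiff hF τ).deriv]
    exact mul_ne_zero Complex.two_pi_I_ne_zero hD

lemma analyticOrderAt_eq_zero_of_ne {F : ℍ → ℂ} {τ : ℍ} (h0 : F τ ≠ 0) :
    analyticOrderAt (F ∘ ofComplex) τ = 0 := by
  rw [analyticOrderAt_eq_zero]
  right
  simpa using h0

theorem analyticOrderAt_E₄ {τ : ℍ} (h : E₄ τ = 0) :
    analyticOrderAt ((E₄ : ℍ → ℂ) ∘ ofComplex) τ = 1 := by
  refine analyticOrderAt_eq_one mdiff_E₄ h ?_
  rw [D_E₄, h, mul_zero, zero_sub]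
  exact div_ne_zero (neg_ne_zero.mpr (E₆_ne_zero_of_E₄ h)) (by norm_num)

theorem analyticOrderAt_E₆ {τ : ℍ} (h : E₆ τ = 0) :
    analyticOrderAt ((E₆ : ℍ → ℂ) ∘ ofComplex) τ = 1 := by
  refine analyticOrderAt_eq_one mdiff_E₆ h ?_
  rw [D_E₆, h, mul_zero, zero_sub]
  exact div_ne_zero (neg_ne_zero.mpr (pow_ne_zero _ (E₄_ne_zero_of_E₆ h))) (by norm_num)

lemma mdiff_sub_const {F : ℍ → ℂ} (hF : MDiff F) (c : ℂ) : MDiff (fun z => F z - c) :=
  hF.sub mdifferentiable_const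

/-- `j - j(τ)` has a simple zero at `τ` if `E₄(τ) ≠ 0`, `E₆(τ) ≠ 0`. -/
theorem analyticOrderAt_jFun_sub_of_ne {τ : ℍ} (h4 : E₄ τ ≠ 0) (h6 : E₆ τ ≠ 0) :
    analyticOrderAt ((fun z => jFun z - jFun τ) ∘ ofComplex) τ = 1 := by
  refine analyticOrderAt_eq_one (mdiff_sub_const jFun_mdiff _) (sub_self _) ?_
  have h : D (fun z => jFun z - jFun τ) τ = D jFun τ := by
    rw [normalizedDerivOfComplex, normalizedDerivOfComplex]
    congr 1
    exact deriv_sub_const (f := jFun ∘ ofComplex) (jFun τ)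
  rw [h, D_jFun]
  exact div_ne_zero (neg_ne_zero.mpr (mul_ne_zero (pow_ne_zero _ h4) h6)) (discriminant_ne_zero τ)

lemma analyticOrderAt_div_discriminant {F : ℍ → ℂ} (hF : MDiff F) (τ : ℍ) :
    analyticOrderAt ((fun z => F z / discriminant z) ∘ ofComplex) τ
      = analyticOrderAt (F ∘ ofComplex) τ := by
  have hd : MDiff (fun z : ℍ => 1 / discriminant z) :=
    mdifferentiable_const.div mdiff_discriminant discriminant_ne_zero
  have : ((fun z => F z / discriminant z) ∘ ofComplex)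
      = (F ∘ ofComplex) * ((fun z : ℍ => 1 / discriminant z) ∘ ofComplex) := by
    funext z
    simp only [Function.comp_apply, Pi.mul_apply]
    ring
  rw [this, analyticOrderAt_mul (analyticAt_of_mdiff hF τ) (analyticAt_of_mdiff hd τ),
    analyticOrderAt_eq_zero_of_ne (F := fun z : ℍ => 1 / discriminant z)
      (one_div_ne_zero (discriminant_ne_zero τ)), add_zero]

/-- `j` has a triple zero at the zeros of `E₄`. -/
theorem analyticOrderAt_jFun_of_E₄ {τ : ℍ} (h : E₄ τ = 0) :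
    analyticOrderAt (jFun ∘ ofComplex) τ = 3 := by
  have h1 := analyticOrderAt_div_discriminant (F := fun z => E₄ z ^ 3) (mdiff_E₄.pow 3) τ
  have h2 : ((fun z => E₄ z ^ 3) ∘ ofComplex) = ((E₄ : ℍ → ℂ) ∘ ofComplex) ^ 3 := rfl
  rw [h2, analyticOrderAt_pow (analyticAt_of_mdiff mdiff_E₄ τ), analyticOrderAt_E₄ h] at h1
  have h3 : jFun = fun z => E₄ z ^ 3 / discriminant z := rfl
  rw [h3]
  simpa using h1

/-- `j - 1728` has a double zero at the zeros of `E₆`. -/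
theorem analyticOrderAt_jFun_sub_1728_of_E₆ {τ : ℍ} (h : E₆ τ = 0) :
    analyticOrderAt ((fun z => jFun z - 1728) ∘ ofComplex) τ = 2 := by
  have h1 := analyticOrderAt_div_discriminant (F := fun z => E₆ z ^ 2) (mdiff_E₆.pow 2) τ
  have h2 : ((fun z => E₆ z ^ 2) ∘ ofComplex) = ((E₆ : ℍ → ℂ) ∘ ofComplex) ^ 2 := rfl
  rw [h2, analyticOrderAt_pow (analyticAt_of_mdiff mdiff_E₆ τ), analyticOrderAt_E₆ h] at h1
  simp only [jFun_sub_1728]
  simpa using h1

theorem analyticOrderAt_jFun_sub_of_E₄ {τ : ℍ} (h : E₄ τ = 0) :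
    analyticOrderAt ((fun z => jFun z - jFun τ) ∘ ofComplex) τ = 3 := by
  rw [(jFun_eq_zero_iff τ).mpr h]
  simp only [sub_zero]
  exact analyticOrderAt_jFun_of_E₄ h

theorem analyticOrderAt_jFun_sub_of_E₆ {τ : ℍ} (h : E₆ τ = 0) :
    analyticOrderAt ((fun z => jFun z - jFun τ) ∘ ofComplex) τ = 2 := by
  rw [(jFun_eq_1728_iff τ).mpr h]
  exact analyticOrderAt_jFun_sub_1728_of_E₆ h

lemma S_smul_I : ModularGroup.S • (UpperHalfPlane.I) = UpperHalfPlane.I := by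
  rw [modular_S_smul, UpperHalfPlane.ext_iff]
  norm_num

lemma ST_smul_ρ : (ModularGroup.S * ModularGroup.T) • ρ = ρ := by
  rw [ModularGroup.stabilizer_ρ]
  simp

/-- `E₆(i) = 0`. -/
theorem E₆_I : E₆ UpperHalfPlane.I = 0 := by
  have h := slash_apply_form E₆ ModularGroup.S UpperHalfPlane.I
  rw [S_smul_I, ModularGroup.denom_S, coe_I] at h
  have h2 : (Complex.I : ℂ) ^ (6 : ℤ) = -1 := by
    rw [show (6 : ℤ) = ((6 : ℕ) : ℤ) by norm_num, zpow_natCast, show 6 = 4 + 2 by norm_num, pow_add,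
      Complex.I_pow_four, Complex.I_sq]
    norm_num
  rw [h2] at h
  have h3 : (2 : ℂ) * E₆ UpperHalfPlane.I = 0 := by linear_combination h
  simpa using h3

/-- `E₄(ρ) = 0`. -/
theorem E₄_ρ : E₄ ρ = 0 := by
  have h := slash_apply_form E₄ (ModularGroup.S * ModularGroup.T) ρ
  rw [ST_smul_ρ] at h
  have hd : denom (ModularGroup.S * ModularGroup.T : SL(2, ℤ)) ρ = (ρ : ℂ) + 1 := by
    rw [show ModularGroup.S * ModularGroup.T = ⟨!![0, -1; 1, 1], by simp⟩ by decide]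
    simp [denom]
  rw [hd] at h
  have hρ := ρ_sq
  have h2 : ((ρ : ℂ) + 1) ^ (4 : ℤ) = -(ρ : ℂ) - 1 := by
    rw [show (4 : ℤ) = ((4 : ℕ) : ℤ) by norm_num, zpow_natCast]
    grind
  rw [h2] at h
  have h3 : ((ρ : ℂ) + 2) * E₄ ρ = 0 := by linear_combination h
  rcases mul_eq_zero.mp h3 with h4 | h4
  · exfalso
    have : (ρ : ℂ) = -2 := by linear_combination h4
    have him := ρ.im_pos
    rw [← coe_im, this] at him
    simp at him
  · exact h4

lemma jFun_ρ : jFun ρ = 0 := (jFun_eq_zero_iff ρ).mpr E₄_ρ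

lemma jFun_I : jFun UpperHalfPlane.I = 1728 := (jFun_eq_1728_iff _).mpr E₆_I

theorem analyticOrderAt_jFun_ρ : analyticOrderAt (jFun ∘ ofComplex) ρ = 3 :=
  analyticOrderAt_jFun_of_E₄ E₄_ρ

theorem analyticOrderAt_jFun_sub_1728_I :
    analyticOrderAt ((fun z => jFun z - 1728) ∘ ofComplex) (UpperHalfPlane.I : ℍ) = 2 :=
  analyticOrderAt_jFun_sub_1728_of_E₆ E₆_I

/-- If `j(τ) ≠ 0, 1728` then the stabiliser of `τ` in `SL₂(ℤ)` is `± 1`. -/
theorem eq_one_or_neg_one_of_smul_eq {γ : SL(2, ℤ)} {τ : ℍ} (hγ : γ • τ = τ)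
    (h4 : E₄ τ ≠ 0) (h6 : E₆ τ ≠ 0) : γ = 1 ∨ γ = -1 := by
  have h := denom_pow_eq_one_of_invariant (F := fun z => jFun z - jFun τ)
    (mdiff_sub_const jFun_mdiff _) hγ (fun z => by simp only [jFun_smul]) (n := 1)
    (by rw [analyticOrderAt_jFun_sub_of_ne h4 h6]; rfl)
  rw [pow_one] at h
  have hd : denom γ τ = (γ 1 0 : ℂ) * τ + (γ 1 1 : ℂ) := by simp [denom]
  have him : (denom γ τ).im = (γ 1 0 : ℝ) * τ.im := by
    rw [hd]; simp
  have hc : γ 1 0 = 0 := by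
    have h1 : denom γ τ = 1 ∨ denom γ τ = -1 := mul_self_eq_one_iff.mp (by rw [← sq]; exact h)
    have h2 : (denom γ τ).im = 0 := by rcases h1 with h1 | h1 <;> rw [h1] <;> simp
    rw [him] at h2
    rcases mul_eq_zero.mp h2 with h3 | h3
    · exact_mod_cast h3
    · exact absurd h3 τ.im_pos.ne'
  have hdet : γ 0 0 * γ 1 1 = 1 := by
    have := Matrix.SpecialLinearGroup.det_coe γ
    rw [Matrix.det_fin_two, hc, mul_zero, sub_zero] at this
    exact this
  have hcoe : ((γ • τ : ℍ) : ℂ) = τ := by rw [hγ]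
  rw [UpperHalfPlane.coe_specialLinearGroup_apply] at hcoe
  have hd1 : γ 1 1 ≠ 0 := by
    intro h0
    rw [h0, mul_zero] at hdet
    exact zero_ne_one hdet
  have hd1' : (γ 1 1 : ℂ) ≠ 0 := by exact_mod_cast hd1
  simp only [hc, algebraMap_int_eq, eq_intCast, Int.cast_zero, Complex.ofReal_zero, zero_mul,
    zero_add, Complex.ofReal_intCast] at hcoe
  rw [div_eq_iff hd1'] at hcoe
  have him2 := congrArg Complex.im hcoe
  simp only [Complex.add_im, Complex.mul_im, Complex.intCast_re, Complex.intCast_im, zero_mul,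
    add_zero, mul_zero, zero_add, coe_im] at him2
  have ha : (γ 0 0 : ℝ) = γ 1 1 := by
    have := τ.im_pos.ne'
    apply mul_right_cancel₀ this
    linarith
  have ha' : γ 0 0 = γ 1 1 := by exact_mod_cast ha
  have hb : γ 0 1 = 0 := by
    rw [ha'] at hcoe
    have : (γ 0 1 : ℂ) = 0 := by linear_combination hcoe
    exact_mod_cast this
  rw [ha'] at hdet
  rcases mul_self_eq_one_iff.mp hdet with h1 | h1
  · left
    ext i j
    fin_cases i <;> fin_cases j <;> simp [ha', hb, hc, h1]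
  · right
    ext i j
    fin_cases i <;> fin_cases j <;> simp [ha', hb, hc, h1]

/-- Meromorphic version of `deriv_pow_eq_one_of_comp_eq`. -/
theorem deriv_zpow_eq_one_of_comp_eq {f g : ℂ → ℂ} {z₀ : ℂ} (hg : AnalyticAt ℂ g z₀)
    (hgz : g z₀ = z₀) (hg' : deriv g z₀ ≠ 0) (hfg : f ∘ g =ᶠ[𝓝[≠] z₀] f) {n : ℤ}
    (hn : meromorphicOrderAt f z₀ = n) (hf : MeromorphicAt f z₀) : deriv g z₀ ^ n = 1 := by
  obtain ⟨h, hh, hh0, hfh⟩ := (meromorphicOrderAt_eq_int_iff hf).mp hn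
  have hslope := hasDerivAt_iff_tendsto_slope.mp hg.differentiableAt.hasDerivAt
  have hgc : Filter.Tendsto g (𝓝[≠] z₀) (𝓝 z₀) := by
    have := hg.continuousAt.tendsto
    rw [hgz] at this
    exact this.mono_left nhdsWithin_le_nhds
  have hgne : ∀ᶠ z in 𝓝[≠] z₀, g z ≠ z₀ := by
    have := hg.differentiableAt.hasDerivAt.eventually_ne (c := z₀) hg'
    exact this
  have hgc' : Filter.Tendsto g (𝓝[≠] z₀) (𝓝[≠] z₀) :=
    tendsto_nhdsWithin_iff.mpr ⟨hgc, hgne⟩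
  have hhc : Filter.Tendsto h (𝓝 z₀) (𝓝 (h z₀)) := hh.continuousAt.tendsto
  have hlim1 : Filter.Tendsto (fun z => slope g z₀ z ^ n * h (g z)) (𝓝[≠] z₀)
      (𝓝 (deriv g z₀ ^ n * h z₀)) := (hslope.zpow₀ n (Or.inl hg')).mul (hhc.comp hgc)
  have hlim2 : Filter.Tendsto (fun z => h z) (𝓝[≠] z₀) (𝓝 (h z₀)) :=
    hhc.mono_left nhdsWithin_le_nhds
  have heq : (fun z => slope g z₀ z ^ n * h (g z)) =ᶠ[𝓝[≠] z₀] fun z => h z := by
    have e2 : ∀ᶠ z in 𝓝[≠] z₀, f (g z) = (g z - z₀) ^ n • h (g z) := hgc'.eventually hfh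
    filter_upwards [hfh, e2, hfg, self_mem_nhdsWithin] with z h1 h2 h3 hz
    have hz' : z - z₀ ≠ 0 := sub_ne_zero.mpr hz
    rw [Function.comp_apply, h1, h2] at h3
    simp only [smul_eq_mul] at h3
    rw [slope_def_field, hgz, div_zpow, div_mul_eq_mul_div, h3, mul_comm, mul_div_assoc,
      div_self (zpow_ne_zero n hz'), mul_one]
  have := tendsto_nhds_unique (hlim1.congr' heq) hlim2
  exact mul_right_cancel₀ hh0 (by rw [this, one_mul])

/-- Meromorphic version of `denom_pow_eq_one_of_invariant`. -/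
theorem denom_zpow_eq_one_of_invariant {F : ℍ → ℂ} {γ : SL(2, ℤ)} {τ : ℍ}
    (hF : MeromorphicAt (F ∘ ofComplex) τ)
    (hγ : γ • τ = τ) (hinv : ∀ z : ℍ, F (γ • z) = F z) {n : ℤ}
    (hn : meromorphicOrderAt (F ∘ ofComplex) τ = n) : (denom γ τ ^ 2) ^ n = 1 := by
  have hdet : ((γ : GL (Fin 2) ℝ)).val.det = 1 := by
    rw [← Matrix.GeneralLinearGroup.val_det_apply]; simp
  have hdet' : 0 < ((γ : GL (Fin 2) ℝ)).val.det := by rw [hdet]; exact one_pos
  have h := deriv_zpow_eq_one_of_comp_eq (f := F ∘ ofComplex)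
    (g := fun z : ℂ ↦ (((γ : GL (Fin 2) ℝ) • ofComplex z : ℍ) : ℂ)) (z₀ := τ)
    (analyticAt_smul hdet' τ) (by
      rw [ofComplex_apply]
      exact congrArg _ hγ) (deriv_smul_ne_zero hdet' τ) (Filter.Eventually.of_forall fun z => by
        simp only [Function.comp_apply, ofComplex_apply]
        exact hinv _) hn hF
  rw [deriv_smul hdet', hdet] at h
  push_cast at h
  rw [one_div, inv_zpow, inv_eq_one] at h
  exact h

lemma denom_ST_ρ : denom (ModularGroup.S * ModularGroup.T : SL(2, ℤ)) ρ ^ 2 = (ρ : ℂ) := by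
  have hd : denom (ModularGroup.S * ModularGroup.T : SL(2, ℤ)) ρ = (ρ : ℂ) + 1 := by
    rw [show ModularGroup.S * ModularGroup.T = ⟨!![0, -1; 1, 1], by simp⟩ by decide]
    simp [denom]
  rw [hd]
  have hρ := ρ_sq
  linear_combination hρ

lemma denom_S_I : denom (ModularGroup.S : SL(2, ℤ)) UpperHalfPlane.I ^ 2 = -1 := by
  rw [ModularGroup.denom_S, coe_I, Complex.I_sq]

lemma ρ_pow_three : (ρ : ℂ) ^ 3 = 1 := by
  have hρ := ρ_sq
  linear_combination ((ρ : ℂ) - 1) * hρ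

lemma ρ_ne_one : (ρ : ℂ) ≠ 1 := by
  intro h
  have him := ρ.im_pos
  rw [← coe_im, h] at him
  simp at him

/-- Order divisible by `3` at `ρ` for functions invariant under `ST`. -/
theorem three_dvd_meromorphicOrderAt_ρ {F : ℍ → ℂ} (hF : MeromorphicAt (F ∘ ofComplex) ρ)
    (hinv : ∀ z : ℍ, F ((ModularGroup.S * ModularGroup.T : SL(2, ℤ)) • z) = F z) {n : ℤ}
    (hn : meromorphicOrderAt (F ∘ ofComplex) ρ = n) : 3 ∣ n := by
  have h := denom_zpow_eq_one_of_invariant hF ST_smul_ρ hinv hn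
  rw [denom_ST_ρ] at h
  have h3 : orderOf (ρ : ℂ) = 3 := by
    have : Fact (Nat.Prime 3) := ⟨Nat.prime_three⟩
    exact orderOf_eq_prime ρ_pow_three ρ_ne_one
  have hu : IsUnit (ρ : ℂ) := isUnit_iff_ne_zero.mpr ρ.ne_zero
  obtain ⟨u, hu⟩ := hu
  have h3' : orderOf u = 3 := by rw [← orderOf_units, hu, h3]
  have h' : u ^ n = 1 := by
    apply Units.ext
    rw [Units.val_zpow_eq_zpow_val, hu, h, Units.val_one]
  have := orderOf_dvd_iff_zpow_eq_one.mpr h'
  rw [h3'] at this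
  exact_mod_cast this

/-- Order divisible by `2` at `i` for functions invariant under `S`. -/
theorem two_dvd_meromorphicOrderAt_I {F : ℍ → ℂ}
    (hF : MeromorphicAt (F ∘ ofComplex) (UpperHalfPlane.I : ℍ))
    (hinv : ∀ z : ℍ, F ((ModularGroup.S : SL(2, ℤ)) • z) = F z) {n : ℤ}
    (hn : meromorphicOrderAt (F ∘ ofComplex) (UpperHalfPlane.I : ℍ) = n) : 2 ∣ n := by
  have h := denom_zpow_eq_one_of_invariant hF S_smul_I hinv hn
  rw [denom_S_I] at h
  rcases Int.even_or_odd n with he | ho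
  · exact he.two_dvd
  · rw [ho.neg_one_zpow] at h
    norm_num at h

/-- Order divisible by `3` at `ρ` for holomorphic functions invariant under `ST`. -/
theorem three_dvd_analyticOrderAt_ρ {F : ℍ → ℂ} (hF : MDiff F)
    (hinv : ∀ z : ℍ, F ((ModularGroup.S * ModularGroup.T : SL(2, ℤ)) • z) = F z) {n : ℕ}
    (hn : analyticOrderAt (F ∘ ofComplex) ρ = n) : 3 ∣ n := by
  have ha := analyticAt_of_mdiff hF ρ
  have := three_dvd_meromorphicOrderAt_ρ ha.meromorphicAt hinv (n := n) (by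
    rw [ha.meromorphicOrderAt_eq, hn]; rfl)
  exact_mod_cast this

/-- Order divisible by `2` at `i` for holomorphic functions invariant under `S`. -/
theorem two_dvd_analyticOrderAt_I {F : ℍ → ℂ} (hF : MDiff F)
    (hinv : ∀ z : ℍ, F ((ModularGroup.S : SL(2, ℤ)) • z) = F z) {n : ℕ}
    (hn : analyticOrderAt (F ∘ ofComplex) (UpperHalfPlane.I : ℍ) = n) : 2 ∣ n := by
  have ha := analyticAt_of_mdiff hF UpperHalfPlane.I
  have := two_dvd_meromorphicOrderAt_I ha.meromorphicAt hinv (n := n) (by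
    rw [ha.meromorphicOrderAt_eq, hn]; rfl)
  exact_mod_cast this

end Fermat.Agent.JLevelOne
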